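import Fermat.Agent.EllenbergVenkatesh.GRH
import Mathlib.NumberTheory.NumberField.CMField

/-!
# The exponent of the class group of a CM field

If `P` has degree one, is unramified and `P ^ e = (δ)` then `P̄ ≠ P`, so `δ / δ̄` generates `K`; all
its absolute values are one, so `|d| ≤ n! ² N P ^ (2 e (n - 1))`. On the Riemann hypothesis some
`P` has norm `O ((1 + log |d|) ^ 4)`.
-/

set_option autoImplicit false
set_option linter.style.haveILetI false

noncomputable section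

namespace FA.CMExponent

open NumberField Module FA.EllenbergVenkatesh
open scoped nonZeroDivisors

variable {K : Type} [Field K] [NumberField K] [IsCMField K]

/-- Complex conjugation on the integers. -/
def conjInt : 𝓞 K ≃+* 𝓞 K :=
  RingOfIntegers.mapRingEquiv (IsCMField.complexConj K).toRingEquiv

theorem coe_conjInt (x : 𝓞 K) : (conjInt x : K) = IsCMField.complexConj K (x : K) := rfl

theorem conjInt_conjInt (x : 𝓞 K) : conjInt (conjInt x) = x :=
  RingOfIntegers.ext (IsCMField.complexConj_apply_apply K (x : K))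

theorem map_conjInt_ne {P : Ideal (𝓞 K)} (hP : IsSplitPrime P) :
    P.map (conjInt : 𝓞 K ≃+* 𝓞 K).toRingHom ≠ P := by
  intro hfix
  haveI := hP.isPrime
  have hmemP : ∀ x, conjInt x ∈ P → x ∈ P := fun x hx => by
    have h1 := Ideal.mem_map_of_mem (conjInt : 𝓞 K ≃+* 𝓞 K).toRingHom hx
    rw [hfix] at h1
    simpa [conjInt_conjInt] using h1
  obtain ⟨F, hF⟩ : ∃ F, F = maximalRealSubfield K := ⟨_, rfl⟩
  subst hF
  have hinj : Function.Injective (algebraMap (𝓞 (maximalRealSubfield K)) (𝓞 K)) :=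
    FaithfulSMul.algebraMap_injective _ _
  obtain ⟨p, hp⟩ : ∃ p, p = Ideal.absNorm P := ⟨_, rfl⟩
  obtain ⟨Pm, hPm⟩ : ∃ Pm, Pm = P.comap (algebraMap (𝓞 (maximalRealSubfield K)) (𝓞 K)) :=
    ⟨_, rfl⟩
  haveI hPmp : Pm.IsPrime := hPm ▸ Ideal.comap_isPrime _ P
  have hpPm : (p : 𝓞 (maximalRealSubfield K)) ∈ Pm := by
    rw [hPm, Ideal.mem_comap, map_natCast, hp]
    exact Ideal.absNorm_mem P
  have hPm0 : Pm ≠ ⊥ := fun e => hP.1.ne_zero (by
    rw [e, Ideal.mem_bot, Nat.cast_eq_zero] at hpPm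
    exact hp ▸ hpPm)
  obtain ⟨R, hR⟩ : P ∣ Pm.map (algebraMap (𝓞 (maximalRealSubfield K)) (𝓞 K)) :=
    Ideal.dvd_iff_le.2 (Ideal.map_le_iff_le_comap.2 hPm.le)
  have hfp : Pm.map (algebraMap (𝓞 (maximalRealSubfield K)) (𝓞 K)) ∣ Ideal.span {(p : 𝓞 K)} := by
    rw [← map_natCast (algebraMap (𝓞 (maximalRealSubfield K)) (𝓞 K)) p, ← Set.image_singleton,
      ← Ideal.map_span, Ideal.dvd_iff_le]
    exact Ideal.map_mono ((Ideal.span_singleton_le_iff_mem _).2 hpPm)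
  have hN : ¬ IsUnit R := by
    intro hu
    rw [Ideal.isUnit_iff] at hu
    rw [hu, Ideal.mul_top] at hR
    have h1 := congrArg Ideal.absNorm hR
    rw [Ideal.absNorm_algebraMap, ← hp,
      ← IsFractionRing.finrank_eq (𝓞 (maximalRealSubfield K)) (maximalRealSubfield K) (𝓞 K) K,
      Algebra.IsQuadraticExtension.finrank_eq_two] at h1
    have h2 : p.Prime := hp ▸ hP.1
    rw [← h1] at h2
    exact Nat.Prime.not_prime_pow le_rfl h2
  have hR0 : R ≠ 0 := fun e => hPm0 ((Ideal.map_eq_bot_iff_of_injective hinj).1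
    (by rw [hR, e, mul_zero]; rfl))
  obtain ⟨R', hR'i, hR'⟩ := WfDvdMonoid.exists_irreducible_factor hN hR0
  haveI hR'p : R'.IsPrime := Ideal.isPrime_of_prime hR'i.prime
  have hne : R' ≠ P := fun e => hP.2 (by
    rw [← hp, pow_two]
    exact (hR ▸ mul_dvd_mul_left P (e ▸ hR')).trans hfp)
  have hunder : R'.comap (algebraMap (𝓞 (maximalRealSubfield K)) (𝓞 K)) = Pm := by
    refine ((hPmp.isMaximal hPm0).eq_of_le (Ideal.comap_isPrime _ R').ne_top ?_).symm
    rw [← Ideal.map_le_iff_le_comap, ← Ideal.dvd_iff_le, hR]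
    exact hR'.mul_left P
  obtain ⟨x, hxR, hxP⟩ : ∃ x ∈ R', x ∉ P := by
    by_contra hall
    push Not at hall
    exact hne ((hR'p.isMaximal hR'i.prime.ne_zero).eq_of_le hP.isPrime.ne_top hall)
  obtain ⟨y, hy⟩ : ∃ y : 𝓞 (maximalRealSubfield K),
      algebraMap (𝓞 (maximalRealSubfield K)) K y = ((x * conjInt x : 𝓞 K) : K) := by
    rw [← IsCMField.RingOfIntegers.complexConj_eq_self_iff]
    have e : ∀ a b : 𝓞 K, ((a * b : 𝓞 K) : K) = (a : K) * b := fun a b => rfl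
    rw [e, coe_conjInt, map_mul, IsCMField.complexConj_apply_apply, mul_comm]
  have hy' : algebraMap (𝓞 (maximalRealSubfield K)) (𝓞 K) y = x * conjInt x :=
    RingOfIntegers.ext hy
  have hymem : y ∈ Pm := by
    rw [← hunder, Ideal.mem_comap, hy']
    exact R'.mul_mem_right _ hxR
  rw [hPm, Ideal.mem_comap, hy'] at hymem
  rcases hP.isPrime.mem_or_mem hymem with h | h
  · exact hxP h
  · exact hxP (hmemP x h)

/-- **A principal power of a split prime.** -/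
theorem discr_le_of_principal {P : Ideal (𝓞 K)} (hP : IsSplitPrime P) {e : ℕ} (he : e ≠ 0)
    (hpr : (P ^ e).IsPrincipal) :
    |(discr K : ℝ)| ≤ ((finrank ℚ K).factorial : ℝ) ^ 2 *
      (Ideal.absNorm P : ℝ) ^ (2 * e * (finrank ℚ K - 1)) := by
  obtain ⟨δ, hδ⟩ := hpr.principal
  rw [Ideal.submodule_span_eq] at hδ
  have hδ0 : δ ≠ 0 := fun h => pow_ne_zero e hP.prime.ne_zero (by rw [hδ, h]; simp)
  obtain ⟨Q, hQ⟩ : ∃ Q, Q = P.map (conjInt : 𝓞 K ≃+* 𝓞 K).toRingHom := ⟨_, rfl⟩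
  haveI := hP.isPrime
  have hQp : Q.IsPrime := hQ ▸ Ideal.map_isPrime_of_equiv (conjInt : 𝓞 K ≃+* 𝓞 K)
  have hQ0 : Q ≠ ⊥ := fun h => hP.prime.ne_zero
    ((Ideal.map_eq_bot_iff_of_injective (conjInt : 𝓞 K ≃+* 𝓞 K).injective).1 (hQ ▸ h))
  have hδ'0 : conjInt δ ≠ 0 := (map_ne_zero_iff _ (conjInt : 𝓞 K ≃+* 𝓞 K).injective).2 hδ0
  have hQe : Q ^ e = Ideal.span {conjInt δ} := by
    rw [hQ, ← Ideal.map_pow, hδ, Ideal.map_span, Set.image_singleton]
    rfl
  have hgen := adjoin_eq_top hδ0 hδ'0 hP hQp hQ0 (fun h => map_conjInt_ne hP (hQ ▸ h.symm)) he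
    (by rw [← hδ, ← hQe, mul_comm])
  have h := discr_mul_absNorm_le δ (conjInt δ) hgen hδ'0 ⊤ trivial trivial
  have hmax : ∀ φ : K →+* ℂ, max ‖φ (δ : K)‖ ‖φ (conjInt δ : K)‖ = ‖φ (δ : K)‖ := fun φ => by
    rw [coe_conjInt, IsCMField.complexEmbedding_complexConj, Complex.norm_conj, max_self]
  have hnorm : ∏ φ : K →+* ℂ, ‖φ (δ : K)‖ = (Ideal.absNorm P : ℝ) ^ e := by
    have e1 := Algebra.norm_eq_prod_embeddings ℚ ℂ (δ : K)
    rw [← Algebra.coe_norm_int, eq_ratCast, Rat.cast_intCast] at e1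
    have e2 := congrArg (fun z : ℂ => ‖z‖) e1
    simp only [Complex.norm_intCast, norm_prod] at e2
    rw [← (Fintype.prod_equiv (RingHom.equivRatAlgHom K ℂ)
      (fun φ => ‖φ (δ : K)‖) _ fun φ => rfl)] at e2
    rw [← e2, ← Int.cast_abs, Int.abs_eq_natAbs, Int.cast_natCast,
      ← Ideal.absNorm_span_singleton, ← hδ, map_pow, Nat.cast_pow]
  rw [Finset.prod_congr rfl fun φ _ => hmax φ, hnorm, Ideal.absNorm_top, Nat.cast_one, one_pow,
    mul_one, ← pow_mul] at h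
  refine h.trans_eq ?_
  congr 2
  ring

omit [IsCMField K] in
theorem exponent_pow_principal {P : Ideal (𝓞 K)} (hP : P ≠ ⊥) :
    Monoid.exponent (ClassGroup (𝓞 K)) ≠ 0 ∧
      (P ^ Monoid.exponent (ClassGroup (𝓞 K))).IsPrincipal := by
  refine ⟨Monoid.exponent_ne_zero_of_finite, ?_⟩
  obtain ⟨E, hE⟩ : ∃ E, E = Monoid.exponent (ClassGroup (𝓞 K)) := ⟨_, rfl⟩
  rw [← hE]
  have h : ClassGroup.mk0 ((⟨P, mem_nonZeroDivisors_of_ne_zero hP⟩ : (Ideal (𝓞 K))⁰) ^ E) = 1 := by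
    rw [map_pow, hE, Monoid.pow_exponent_eq_one]
  rw [show (⟨P, mem_nonZeroDivisors_of_ne_zero hP⟩ : (Ideal (𝓞 K))⁰) ^ E =
      ⟨P ^ E, pow_mem (mem_nonZeroDivisors_of_ne_zero hP) E⟩ from
    Subtype.ext (SubmonoidClass.coe_pow _ _), ClassGroup.mk0_eq_one_iff] at h
  exact h

/-- **The exponent against a small split prime.** -/
theorem log_discr_le_exponent {P : Ideal (𝓞 K)} (hP : IsSplitPrime P) :
    Real.log |(discr K : ℝ)| ≤ 2 * Real.log (finrank ℚ K).factorial +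
      2 * ((finrank ℚ K : ℝ) - 1) * Real.log (Ideal.absNorm P) *
        Monoid.exponent (ClassGroup (𝓞 K)) := by
  obtain ⟨he, hpr⟩ := exponent_pow_principal hP.prime.ne_zero
  have h := Real.log_le_log (abs_pos.2 (Int.cast_ne_zero.2 (discr_ne_zero K)))
    (discr_le_of_principal hP he hpr)
  rw [Real.log_mul (pow_ne_zero _ (Nat.cast_ne_zero.2 (Nat.factorial_ne_zero _)))
    (pow_ne_zero _ (Nat.cast_ne_zero.2 hP.1.ne_zero)), Real.log_pow, Real.log_pow] at h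
  refine h.trans (le_of_eq ?_)
  push_cast [Nat.cast_sub (finrank_pos (R := ℚ) (M := K) : 1 ≤ finrank ℚ K)]
  ring

/-- **A split prime of norm `O ((1 + log |d|) ^ 4)` on the Riemann hypothesis.** -/
theorem exists_small_split_prime (n : ℕ) : ∃ Z : ℝ, 4 ≤ Z ∧ ∀ (K : Type) [Field K] [NumberField K],
    FA.ArtinHooley.FieldRH K → finrank ℚ K = n → ∃ P : Ideal (𝓞 K), IsSplitPrime P ∧
      (Ideal.absNorm P : ℝ) ≤ Z * (1 + Real.log |(discr K : ℝ)|) ^ 4 := by
  obtain ⟨A, hA, hcount⟩ := exists_split_count n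
  obtain ⟨a, ha⟩ : ∃ a : ℝ, a = 2 * A * 41 ^ 5 + 1 := ⟨_, rfl⟩
  have ha1 : 1 ≤ a := ha ▸ le_add_of_nonneg_left (by positivity)
  obtain ⟨Z, hZ⟩ : ∃ Z : ℝ, Z = max 4 (a ^ ((8 : ℝ) / 3)) := ⟨_, rfl⟩
  refine ⟨Z, hZ ▸ le_max_left _ _, fun K _ _ hRH hn => ?_⟩
  obtain ⟨L, hL⟩ : ∃ L, L = 1 + Real.log |(discr K : ℝ)| := ⟨_, rfl⟩
  have hD : 1 ≤ |(discr K : ℝ)| := by
    rw [← Int.cast_abs]
    exact_mod_cast Int.one_le_abs (discr_ne_zero K)
  have hL1 : 1 ≤ L := hL ▸ le_add_of_nonneg_right (Real.log_nonneg hD)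
  rw [← hL]
  obtain ⟨X, hX⟩ : ∃ X, X = Z * L ^ 4 := ⟨_, rfl⟩
  rw [← hX]
  have hZ4 : 4 ≤ Z := hZ ▸ le_max_left _ _
  have hX4 : 4 ≤ X := hX ▸ hZ4.trans (le_mul_of_one_le_right (by linarith) (one_le_pow₀ hL1))
  obtain ⟨S, hS, hcard⟩ := hcount K hRH hn X (by linarith)
  rw [← hL] at hcard
  rcases S.eq_empty_or_nonempty with rfl | ⟨P, hP⟩
  swap
  · exact ⟨P, hS P hP⟩
  exfalso
  rw [Finset.card_empty, Nat.cast_zero, sub_nonpos] at hcard
  have hlX : 0 < Real.log X := Real.log_pos (by linarith)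
  have hlog : 1 + Real.log X ≤ 41 * X ^ ((1 : ℝ) / 40) := by
    have h2 := Real.log_le_rpow_div (x := X) (by linarith) (by norm_num : (0 : ℝ) < 1 / 40)
    have h3 := Real.one_le_rpow (by linarith : 1 ≤ X) (by norm_num : (0 : ℝ) ≤ 1 / 40)
    linarith
  have h5 : (1 + Real.log X) ^ 5 ≤ 41 ^ 5 * X ^ ((1 : ℝ) / 8) := by
    refine (pow_le_pow_left₀ (by linarith) hlog 5).trans_eq ?_
    rw [mul_pow, ← Real.rpow_natCast (X ^ _), ← Real.rpow_mul (by linarith)]
    norm_num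
  rw [div_le_iff₀ hlX] at hcard
  have hmain : X / 2 ≤ A * L * (√X * (41 ^ 5 * X ^ ((1 : ℝ) / 8))) := by
    refine le_trans (le_trans (by linarith) hcard) ?_
    rw [mul_assoc, mul_assoc √X]
    refine mul_le_mul_of_nonneg_left (mul_le_mul_of_nonneg_left ?_ (Real.sqrt_nonneg X))
      (mul_nonneg hA (by linarith))
    refine le_trans ?_ h5
    rw [pow_succ (1 + Real.log X) 4]
    exact mul_le_mul_of_nonneg_left (by linarith) (by positivity)
  have hkey : a * L ≤ X ^ ((3 : ℝ) / 8) := by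
    rw [hX, Real.mul_rpow (by linarith) (by positivity)]
    refine mul_le_mul ?_ ?_ (by linarith) (by positivity)
    · refine le_trans (le_of_eq ?_) (Real.rpow_le_rpow (by positivity)
        (hZ ▸ le_max_right 4 (a ^ ((8 : ℝ) / 3))) (by norm_num))
      rw [← Real.rpow_mul (by linarith)]
      norm_num
    · rw [← Real.rpow_natCast, ← Real.rpow_mul (by linarith)]
      exact Real.self_le_rpow_of_one_le hL1 (by norm_num)
  have hsplit : X = X ^ ((3 : ℝ) / 8) * (√X * X ^ ((1 : ℝ) / 8)) := by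
    rw [Real.sqrt_eq_rpow, ← Real.rpow_add (by linarith), ← Real.rpow_add (by linarith)]
    norm_num
  have hpos : 0 < √X * X ^ ((1 : ℝ) / 8) :=
    mul_pos (Real.sqrt_pos.2 (by linarith)) (Real.rpow_pos_of_pos (by linarith) _)
  have h6 : a * L * (√X * X ^ ((1 : ℝ) / 8)) ≤
      2 * A * 41 ^ 5 * L * (√X * X ^ ((1 : ℝ) / 8)) := by
    refine (mul_le_mul_of_nonneg_right hkey hpos.le).trans ?_
    rw [← hsplit]
    linarith
  have h7 := le_of_mul_le_mul_right h6 hpos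
  rw [ha] at h7
  linarith

/-- **The exponent on the Riemann hypothesis.** -/
theorem exists_exponent_bound (n : ℕ) : ∃ c : ℝ, 0 < c ∧
    ∀ (K : Type) [Field K] [NumberField K] [IsCMField K], FA.ArtinHooley.FieldRH K →
      finrank ℚ K = n → c * Real.log |(discr K : ℝ)| /
        Real.log (Real.log |(discr K : ℝ)| + 16) ≤ Monoid.exponent (ClassGroup (𝓞 K)) := by
  obtain ⟨Z, hZ, hsmall⟩ := exists_small_split_prime n
  obtain ⟨k, hk⟩ : ∃ k : ℝ, k = 2 * Real.log n.factorial +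
      2 * (n : ℝ) * (Real.log Z + 4) + 1 := ⟨_, rfl⟩
  have hlZ : 0 ≤ Real.log Z := Real.log_nonneg (by linarith)
  have hlf : 0 ≤ Real.log (n.factorial : ℕ) := Real.log_natCast_nonneg _
  have hk0 : 0 < k := hk ▸ by positivity
  refine ⟨k⁻¹, inv_pos.2 hk0, fun K _ _ _ hRH hn => ?_⟩
  obtain ⟨P, hP, hPX⟩ := hsmall K hRH hn
  have h := log_discr_le_exponent hP
  rw [hn] at h
  obtain ⟨E, hE⟩ : ∃ E : ℝ, E = (Monoid.exponent (ClassGroup (𝓞 K)) : ℕ) := ⟨_, rfl⟩
  rw [← hE] at h ⊢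
  have hE1 : 1 ≤ E :=
    hE ▸ Nat.one_le_cast.2 (Nat.one_le_iff_ne_zero.2 Monoid.exponent_ne_zero_of_finite)
  obtain ⟨L, hL⟩ : ∃ L, L = Real.log |(discr K : ℝ)| := ⟨_, rfl⟩
  have hL0 : 0 ≤ L := hL ▸ Real.log_nonneg (by
    rw [← Int.cast_abs]; exact_mod_cast Int.one_le_abs (discr_ne_zero K))
  rw [← hL] at h hPX ⊢
  have hll : 1 ≤ Real.log (L + 16) := by
    rw [Real.le_log_iff_exp_le (by linarith)]
    linarith [Real.exp_one_lt_d9]
  have hn1 : (1 : ℝ) ≤ n := hn ▸ Nat.one_le_cast.2 finrank_pos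
  have hNP : Real.log (Ideal.absNorm P : ℝ) ≤ (Real.log Z + 4) * Real.log (L + 16) := by
    refine (Real.log_le_log (Nat.cast_pos.2 hP.1.pos) hPX).trans ?_
    rw [Real.log_mul (by linarith) (by positivity), Real.log_pow, add_mul]
    refine add_le_add (le_mul_of_one_le_right hlZ hll) ?_
    push_cast
    linarith [Real.log_le_log (by linarith : (0 : ℝ) < 1 + L)
      (by linarith : 1 + L ≤ L + 16)]
  rw [inv_mul_eq_div, div_div, div_le_iff₀ (by positivity)]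
  have hE' : 1 ≤ E * Real.log (L + 16) := one_le_mul_of_one_le_of_one_le hE1 hll
  calc L ≤ 2 * Real.log (n.factorial : ℕ) + 2 * ((n : ℝ) - 1) *
        Real.log (Ideal.absNorm P : ℝ) * E := h
    _ ≤ 2 * Real.log (n.factorial : ℕ) * (E * Real.log (L + 16)) +
        2 * (n : ℝ) * ((Real.log Z + 4) * Real.log (L + 16)) * E := by
        refine add_le_add (le_mul_of_one_le_right (by linarith) hE')
          (mul_le_mul_of_nonneg_right (mul_le_mul (by linarith) hNP (Real.log_natCast_nonneg _)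
            (by linarith)) (by linarith))
    _ ≤ E * (k * Real.log (L + 16)) := by
        rw [hk]
        nlinarith only [hE']

end FA.CMExponent

end
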